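import Fermat.Agent.Mazur.Frey.Line

/-!
# S12 from the formal immersion statement at level `p` or `2p`
-/

set_option autoImplicit false

noncomputable section

namespace Fermat.Agent.Mazur.Frey

open WeierstrassCurve WeierstrassCurve.Affine WeierstrassCurve.Affine.Point
open scoped WeierstrassCurve.Affine

local notation "Qb" => AlgebraicClosure ℚ

/-- `k • Q` and `Q₂` stay in the cyclic group generated by `Q + Q₂`. -/
theorem smul_add_mem_zmultiples {M : Type*} [AddCommGroup M] {Q Q₂ : M} {p k : ℕ} (hodd : Odd p)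
    (hQ : p • Q = 0) (hQ₂ : 2 • Q₂ = 0) : k • Q + Q₂ ∈ AddSubgroup.zmultiples (Q + Q₂) := by
  obtain ⟨m, rfl⟩ := hodd
  refine ⟨((k + (k + 1) * (2 * m + 1) : ℕ) : ℤ), ?_⟩
  simp only [natCast_zsmul]
  have h1 : (k + (k + 1) * (2 * m + 1)) • Q = k • Q := by
    rw [add_nsmul, mul_nsmul' Q (k + 1), hQ, nsmul_zero, add_zero]
  have h2 : (k + (k + 1) * (2 * m + 1)) • Q₂ = Q₂ := by
    rw [show k + (k + 1) * (2 * m + 1) = 2 * (k + (k + 1) * m) + (1 : ℕ) by ring, add_nsmul,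
      mul_nsmul, hQ₂, nsmul_zero, zero_add, one_nsmul]
  rw [nsmul_add, h1, h2]

variable (P : FreyPackage)

/-- The points over `3` of the data needed by the formal immersion. -/
theorem exists_line_data (hp : 17 ≤ P.p)
    (h : HasGaloisStableCofixedLine (K := Qb) ℚ P.freyCurve P.p) :
    (3 : ℤ) ∣ P.freyCurveInt.Δ ∧ ¬ (3 : ℤ) ∣ P.freyCurveInt.c₄ ∧
      ∃ Q Q₂ : ((P.freyCurveInt.map (Int.castRingHom ℚ))⁄Qb).Point, addOrderOf Q = P.p ∧ addOrderOf Q₂ = 2 ∧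
        (∀ σ : Qb ≃ₐ[ℚ] Qb, ∃ k : ℕ, σ • Q = k • Q) ∧ (∀ σ : Qb ≃ₐ[ℚ] Qb, σ • Q₂ = Q₂) ∧
        ∀ A : ValuationSubring Qb, A.LiesOverPrime 3 →
          P.freyCurveInt.InZeroComponentAt A Q ∧ P.freyCurveInt.InZeroComponentAt A Q₂ := by
  have := Fact.mk P.pp
  obtain ⟨N, hN, hbot, htop, hcof⟩ := exists_cofixed P h
  have h3 := three_dvd_Δ hp htop hcof
  obtain ⟨Q₂, hQ₂, hfix, hcomp₂⟩ := exists_two_torsion (P := P) h3
  obtain ⟨x, hxN, hx0⟩ := (Submodule.ne_bot_iff N).1 hbot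
  refine ⟨h3, not_three_dvd_c₄ h3, x.1, Q₂,
    addOrderOf_eq_prime (ECLocal.nsmul_coe_torsionBy x) (fun h => hx0 (Subtype.ext h)), hQ₂,
    fun σ => ?_, hfix, fun A hA => ⟨line_inZeroComponent hp hN htop hcof hA hxN, hcomp₂ A hA⟩⟩
  have hmem : σ • x ∈ Submodule.span (ZMod P.p) {x} := by
    rw [span_eq_line htop hxN hx0]
    exact hN σ x hxN
  obtain ⟨a, ha⟩ := Submodule.mem_span_singleton.1 hmem
  refine ⟨a.val, ?_⟩
  have e := congrArg Subtype.val ha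
  rw [← ZMod.natCast_zmod_val a, Nat.cast_smul_eq_nsmul, AddSubmonoidClass.coe_nsmul] at e
  exact e.symm

/-- No cofixed line, given the formal immersion statement at level `p` or at level `2p`. -/
theorem no_cofixedLine_of_core (hp : 17 ≤ P.p)
    (hcore : NoStableLineIn P.p 3 ∨ NoStableLineIn (2 * P.p) 3) :
    ¬ HasGaloisStableCofixedLine (K := Qb) ℚ P.freyCurve P.p := by
  intro h
  obtain ⟨h3, hc₄, Q, Q₂, hQ, hQ₂, hσ, hfix, hcomp⟩ := exists_line_data P hp h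
  have hΔ := ECLocal.freyCurveInt_Δ_ne_zero P
  have hpQ : P.p • Q = 0 := hQ ▸ addOrderOf_nsmul_eq_zero Q
  have h2Q₂ : 2 • Q₂ = 0 := hQ₂ ▸ addOrderOf_nsmul_eq_zero Q₂
  have hnsr : ∀ (A : ValuationSubring Qb), A.LiesOverPrime 3 → ∀ (R : ((P.freyCurveInt.map (Int.castRingHom ℚ))⁄Qb).Point),
      P.freyCurveInt.InZeroComponentAt A R ↔
        R ∈ ECLocal.nonsingSubgroup (ECLocal.integralAt_intModel P.freyCurveInt A) :=
    fun A _ R => (ECLocal.nonsingRed_iff_inZeroComponentAt P.freyCurveInt A R).symm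
  rcases hcore with hcore | hcore
  · refine hcore P.freyCurveInt hΔ h3 hc₄ Q hQ (fun σ => ?_) fun A hA m => ?_
    · obtain ⟨k, hk⟩ := hσ σ
      exact ⟨(k : ℤ), (natCast_zsmul Q k).trans hk.symm⟩
    · exact (hnsr A hA _).2 (AddSubgroup.nsmul_mem _ ((hnsr A hA Q).1 (hcomp A hA).1) m)
  · refine hcore P.freyCurveInt hΔ h3 hc₄ (Q + Q₂) ?_ (fun σ => ?_) fun A hA m => ?_
    · exact ((AddCommute.all Q Q₂).addOrderOf_add_eq_mul_addOrderOf_of_coprime
        (by rw [hQ, hQ₂]; exact P.hp_odd.coprime_two_right)).trans (by rw [hQ, hQ₂, mul_comm])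
    · obtain ⟨k, hk⟩ := hσ σ
      obtain ⟨z, hz⟩ := smul_add_mem_zmultiples (k := k) P.hp_odd hpQ h2Q₂
      exact ⟨z, hz.trans ((smul_add σ Q Q₂).trans (congrArg₂ (· + ·) hk (hfix σ))).symm⟩
    · exact (hnsr A hA _).2 (AddSubgroup.nsmul_mem _ (AddSubgroup.add_mem _
        ((hnsr A hA Q).1 (hcomp A hA).1) ((hnsr A hA Q₂).1 (hcomp A hA).2)) m)

/-- S12 from the formal immersion statement. -/
theorem S12_of_core
    (hcore : ∀ p : ℕ, p.Prime → 17 ≤ p → NoStableLineIn p 3 ∨ NoStableLineIn (2 * p) 3)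
    (P : FreyPackage) (hp : 17 ≤ P.p) :
    ¬ HasGaloisStableCofixedLine (K := Qb) ℚ P.freyCurve P.p :=
  no_cofixedLine_of_core P hp (hcore P.p P.pp hp)

end Fermat.Agent.Mazur.Frey
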