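import Fermat.Prelude.Def_EllipticCurve_ZeroComponentAt
import Fermat.Prelude.Def_FLTPrelim_GaloisRep
import Fermat.Prelude.Def_FLTPrelim_Ramification

/-!
# The statement proved by the formal immersion

`NoStableLineIn N q`: no integral Weierstrass curve with multiplicative reduction at `q` has a
rational cyclic subgroup of order `N` lying in the identity component at the places over `q`.
-/

set_option autoImplicit false

noncomputable section

namespace Fermat.Agent.Mazur

open WeierstrassCurve WeierstrassCurve.Affine.Point
open scoped WeierstrassCurve.Affine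

/-- No curve has a rational cyclic subgroup of order `N` inside the identity component at `q`. -/
def NoStableLineIn (N q : ℕ) : Prop :=
  ∀ W : WeierstrassCurve ℤ, W.Δ ≠ 0 → (q : ℤ) ∣ W.Δ → ¬ (q : ℤ) ∣ W.c₄ →
    ∀ Q : ((W.map (Int.castRingHom ℚ))⁄(AlgebraicClosure ℚ)).Point, addOrderOf Q = N →
      (∀ σ : AlgebraicClosure ℚ ≃ₐ[ℚ] AlgebraicClosure ℚ, σ • Q ∈ AddSubgroup.zmultiples Q) →
      (∀ A : ValuationSubring (AlgebraicClosure ℚ), A.LiesOverPrime q →
        ∀ m : ℕ, W.InZeroComponentAt A (m • Q)) →
      False

end Fermat.Agent.Mazur
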