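import Fermat.Agent.Mazur.Frey.Core
import Fermat.Agent.Mazur.Immersion.Main
import Fermat.Agent.Mazur.Moduli.Main

/-!
# `NoStableLineIn` from the descent and the formal immersion
-/

set_option autoImplicit false

noncomputable section

namespace Fermat.Agent.Mazur.Frey

/-- The formal immersion excludes a stable subgroup of order `p`. -/
theorem noStableLineIn_of_rankZero {p q : ℕ} [NeZero p] [Fact q.Prime] (hp : p.Prime)
    (hq : q ≠ 2) (hqp : ¬ q ∣ p) (hrk : RankZeroElement p)
    (hinj : FixedTorsionRedInjective p q)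
    (hred : Immersion.HasReductionData p (padicPlace q)) : NoStableLineIn p q := by
  intro W hΔ0 hΔ hc₄ Q hQ hstab _
  obtain ⟨P, s, hfix, hs, hev⟩ := Moduli.exists_isEvalPlace_of_stable hp W
    hΔ hΔ0 hc₄ Q hQ hstab
  exact Immersion.not_isEvalPlace_of_rankZero hq hqp hrk hinj hred P hfix hs hev

end Fermat.Agent.Mazur.Frey
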