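import Fermat.Agent.Mazur.Frey.Core
import Fermat.Agent.ECLocal.Frey
import Fermat.Agent.ECLocal.MultSign
import Fermat.Agent.ECLocal.Components
import Fermat.Agent.ECLocal.OverQ
import Fermat.Agent.ECFrob.Main
import Fermat.Agent.Galois.Cyclotomic
import Fermat.Agent.Galois.Decomposition
import Fermat.Agent.SmallLevels.Line
import Fermat.Agent.WeilPairing.Det
import Fermat.Prelude.Def_FLTPrelim_CofixedLine

/-!
# The Frey side of Mazur's theorem

If the Frey curve of exponent `p ≥ 17` has a cofixed line then it has multiplicative reduction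
at `3`, the line lies in the identity component at `3`, and one rational point of order two does
too.
-/

set_option autoImplicit false

noncomputable section

namespace Fermat.Agent.Mazur.Frey

open WeierstrassCurve WeierstrassCurve.Affine WeierstrassCurve.Affine.Point
open scoped WeierstrassCurve.Affine

local notation "Qb" => AlgebraicClosure ℚ

section LinAlg

variable {k V : Type*} [Field k] [AddCommGroup V] [Module k V]

/-- An endomorphism of a plane acting by `c` on a line and trivially on the quotient has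
determinant `c`. -/
theorem det_eq_of_line (h2 : Module.finrank k V = 2) {P₀ x : V}
    (hli : LinearIndependent k ![P₀, x]) (f : V →ₗ[k] V) {c d : k} (hf : f P₀ = c • P₀)
    (hfx : f x = d • P₀ + x) : LinearMap.det f = c := by
  let b : Module.Basis (Fin 2) k V :=
    basisOfLinearIndependentOfCardEqFinrank hli (by rw [h2, Fintype.card_fin])
  have hb : (b : Fin 2 → V) = ![P₀, x] := coe_basisOfLinearIndependentOfCardEqFinrank _ _
  have hb0 : b 0 = P₀ := by rw [hb]; rfl
  have hb1 : b 1 = x := by rw [hb]; rfl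
  rw [← LinearMap.det_toMatrix b, Matrix.det_fin_two]
  simp only [LinearMap.toMatrix_apply, hb0, hb1, hf, hfx, map_add, map_smul]
  rw [← hb0, ← hb1]
  simp [Module.Basis.repr_self]

end LinAlg

variable (P : FreyPackage)

/-- The `p`-torsion of the integral Frey model. -/
abbrev Tors :
    Submodule ℤ ((P.freyCurveInt.map (Int.castRingHom ℚ))⁄Qb).Point :=
  Submodule.torsionBy ℤ ((P.freyCurveInt.map (Int.castRingHom ℚ))⁄Qb).Point P.p

theorem map_Δ_ne_zero : (P.freyCurveInt.map (Int.castRingHom ℚ)).Δ ≠ 0 := by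
  rw [WeierstrassCurve.map_Δ, eq_intCast, Int.cast_ne_zero]
  exact ECLocal.freyCurveInt_Δ_ne_zero P

theorem exists_cofixed
    (h : HasGaloisStableCofixedLine (K := Qb) ℚ P.freyCurve P.p) :
    ∃ N : Submodule (ZMod P.p) (Tors P), IsGaloisStable ℚ N ∧ N ≠ ⊥ ∧ N ≠ ⊤ ∧
      ∀ σ : Qb ≃ₐ[ℚ] Qb, ∀ x : Tors P, σ • x - x ∈ N := by
  rw [← ECLocal.freyCurveInt_map] at h
  exact h

variable {P}

/-- The line is spanned by each of its nonzero points. -/
theorem span_eq_line {N : Submodule (ZMod P.p) (Tors P)} (htop : N ≠ ⊤) {y : Tors P} (hy : y ∈ N)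
    (hy0 : y ≠ 0) : Submodule.span (ZMod P.p) {y} = N := by
  have := Fact.mk P.pp
  have h2 := ECTorsion.finrank_torsionBy_qbar _ (map_Δ_ne_zero P) P.p
  have : FiniteDimensional (ZMod P.p) (Tors P) := Module.finite_of_finrank_pos (by rw [h2]; norm_num)
  have hlt := Submodule.finrank_lt htop
  rw [h2] at hlt
  refine Submodule.eq_of_le_of_finrank_le ((Submodule.span_singleton_le_iff_mem _ _).2 hy) ?_
  rw [finrank_span_singleton hy0]
  omega

/-- The Frey curve has multiplicative reduction at `3`. -/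
theorem three_dvd_Δ (hp : 17 ≤ P.p) {N : Submodule (ZMod P.p) (Tors P)} (htop : N ≠ ⊤)
    (hcof : ∀ σ : Qb ≃ₐ[ℚ] Qb, ∀ x : Tors P, σ • x - x ∈ N) :
    (3 : ℤ) ∣ P.freyCurveInt.Δ := by
  by_contra hΔ
  have := Fact.mk P.pp
  have hgood : P.freyCurveInt.IsGoodPrimeFor 3 := hΔ
  obtain ⟨A, σ, hA, hσ⟩ := Galois.exists_place_isFrobeniusAt Nat.prime_three
  obtain ⟨x, hx⟩ : ∃ x, x ∉ N := by
    by_contra h
    push Not at h
    exact htop (Submodule.eq_top_iff'.2 h)
  set a := P.freyCurveInt.apOfModel 3 with ha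
  have hrel := ECFrob.smul_smul_sub_apOfModel_smul_add P.freyCurveInt Nat.prime_three
    (n := P.p) (fun h => by
      have := (Nat.prime_dvd_prime_iff_eq Nat.prime_three P.pp).1 h
      omega) hgood A hA σ hσ x
  rw [← ha] at hrel
  have hmem : ((4 - a : ℤ) : ZMod P.p) • x ∈ N := by
    rw [Int.cast_smul_eq_zsmul (ZMod P.p)]
    have e : (4 - a) • x = (σ • σ • x - a • (σ • x) + (3 : ℤ) • x) -
        ((σ • σ • x - σ • x) + (σ • x - x) - a • (σ • x - x)) := by
      rw [sub_smul, smul_sub, show (4 : ℤ) • x = (3 : ℤ) • x + x by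
        rw [show (4 : ℤ) = 3 + 1 from rfl, add_smul, one_smul]]
      abel
    rw [e]
    refine N.sub_mem ?_ (N.sub_mem (N.add_mem (hcof _ _) (hcof _ _))
      (N.toAddSubgroup.zsmul_mem (hcof σ x) a))
    have : σ • σ • x - a • (σ • x) + (3 : ℤ) • x = 0 := hrel
    rw [this]
    exact N.zero_mem
  have hdiv : ((4 - a : ℤ) : ZMod P.p) = 0 := by
    by_contra h
    exact hx ((Submodule.smul_mem_iff N h).1 hmem)
  rw [ZMod.intCast_zmod_eq_zero_iff_dvd] at hdiv
  have hb := ECFrob.apOfModel_sq_le P.freyCurveInt Nat.prime_three hgood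
  rw [← ha] at hb
  replace hb : a ^ 2 ≤ 12 := le_trans hb (by norm_num)
  have hlo : -4 < a := by nlinarith
  have hhi : a < 4 := by nlinarith
  have := Int.le_of_dvd (by omega) hdiv
  omega

theorem not_three_dvd_c₄ (h3 : (3 : ℤ) ∣ P.freyCurveInt.Δ) : ¬ (3 : ℤ) ∣ P.freyCurveInt.c₄ :=
  ECLocal.isSemistableModel_freyCurveInt P 3 Nat.prime_three h3

/-- The cofixed line lies in the identity component at every place over `3`. -/
theorem line_inZeroComponent (hp : 17 ≤ P.p) {N : Submodule (ZMod P.p) (Tors P)}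
    (hN : IsGaloisStable ℚ N) (htop : N ≠ ⊤)
    (hcof : ∀ σ : Qb ≃ₐ[ℚ] Qb, ∀ x : Tors P, σ • x - x ∈ N)
    {A : ValuationSubring Qb} (hA : A.LiesOverPrime 3) {y : Tors P} (hy : y ∈ N) :
    P.freyCurveInt.InZeroComponentAt A y.1 := by
  have := Fact.mk P.pp
  have : NeZero P.p := ⟨P.pp.ne_zero⟩
  have h3 := three_dvd_Δ hp htop hcof
  have hV := ECLocal.multAt_intModel P.freyCurveInt (ECLocal.freyCurveInt_Δ_ne_zero P)
    Nat.prime_three h3 (not_three_dvd_c₄ h3) A hA
  rw [← ECLocal.nonsingRed_iff_inZeroComponentAt]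
  by_contra hns
  have hy0 : y ≠ 0 := fun h => hns (by rw [h]; exact ECLocal.nonsingRed_zero A)
  have hspan := span_eq_line htop hy hy0
  -- the line meets the identity component trivially
  have hzero : ∀ u ∈ N, ECLocal.NonsingRed A (u : Tors P).1 → u = 0 := by
    intro u hu hus
    by_contra hu0
    rw [← span_eq_line htop hu hu0, Submodule.mem_span_singleton] at hy
    obtain ⟨c, hc⟩ := hy
    apply hns
    rw [← hc, ← ZMod.natCast_zmod_val c, Nat.cast_smul_eq_nsmul, AddSubmonoidClass.coe_nsmul]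
    exact (ECLocal.nonsingSubgroup hV.toIntegralAt).nsmul_mem hus _
  obtain ⟨σ, hσ⟩ := Galois.exists_isFrobeniusAt hA Nat.prime_three
  have hσD : σ ∈ A.decompositionSubgroup ℚ := hσ.mem_decompositionSubgroup
  have : Algebra.IsAlgebraic ℚ Qb := AlgebraicClosure.isAlgebraic ℚ
  obtain ⟨z, hz, -, hsub⟩ := ECLocal.exists_sign_nonsingRed_sub (S := ℚ) hV hσD
  have hσy : σ • y = z • y :=
    sub_eq_zero.1 (hzero _ (N.sub_mem (hN σ y hy) (N.toAddSubgroup.zsmul_mem hy z)) (hsub y.1))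
  obtain ⟨x, hx⟩ : ∃ x, x ∉ N := by
    by_contra h
    push Not at h
    exact htop (Submodule.eq_top_iff'.2 h)
  obtain ⟨d, hd⟩ : ∃ d : ZMod P.p, d • y = σ • x - x :=
    Submodule.mem_span_singleton.1 (hspan.symm ▸ hcof σ x)
  have hli : LinearIndependent (ZMod P.p) ![y, x] :=
    (LinearIndependent.pair_iff' hy0).2 fun c hc => hx (hc ▸ N.smul_mem c hy)
  set ρ := galoisRepModuleEnd (K := Qb) ℚ (P.freyCurveInt.map (Int.castRingHom ℚ)) P.p σ with hρ
  have hdet : LinearMap.det ρ = (z : ZMod P.p) :=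
    det_eq_of_line (ECTorsion.finrank_torsionBy_qbar _ (map_Δ_ne_zero P) P.p) hli ρ
      (show σ • y = (z : ZMod P.p) • y by rw [Int.cast_smul_eq_zsmul]; exact hσy)
      (show σ • x = d • y + x by rw [hd, sub_add_cancel])
  have hdet3 : LinearMap.det ρ = ((3 : ℕ) : ZMod P.p) := by
    refine Eq.trans ?_ (WeilPairing.det_galoisRep_eq_natCast (K := Qb) _
      ((map_ne_zero_iff _ (algebraMap ℚ Qb).injective).2 (map_Δ_ne_zero P)) P.p
      (Nat.cast_ne_zero.2 P.pp.ne_zero) σ fun ζ hζ =>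
        Galois.isFrobeniusAt_apply_rootOfUnity hA Nat.prime_three hσ (m := P.p)
          (fun h => by
            have := (Nat.prime_dvd_prime_iff_eq Nat.prime_three P.pp).1 h
            omega) hζ)
    rw [LinearEquiv.coe_det]
    rfl
  have he : (((3 : ℤ) - z : ℤ) : ZMod P.p) = 0 := by
    rw [Int.cast_sub, ← hdet, hdet3]
    simp
  rw [ZMod.intCast_zmod_eq_zero_iff_dvd] at he
  have := Int.le_of_dvd (by omega) he
  omega

/-- A rational point of order two in the identity component at every place over `3`. -/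
theorem exists_two_torsion (h3 : (3 : ℤ) ∣ P.freyCurveInt.Δ) :
    ∃ Q₂ : ((P.freyCurveInt.map (Int.castRingHom ℚ))⁄Qb).Point, addOrderOf Q₂ = 2 ∧ (∀ σ : Qb ≃ₐ[ℚ] Qb, σ • Q₂ = Q₂) ∧
      ∀ A : ValuationSubring Qb, A.LiesOverPrime 3 → P.freyCurveInt.InZeroComponentAt A Q₂ := by
  have hflt : (P.a : Qb) ^ P.p + (P.b : Qb) ^ P.p = (P.c : Qb) ^ P.p := by exact_mod_cast P.hFLT
  set V := (P.freyCurveInt.map (Int.castRingHom ℚ))⁄Qb with hV
  have eV : V = (P.freyCurve⁄Qb : WeierstrassCurve Qb) := by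
    rw [hV, ECLocal.freyCurveInt_map]
  have e1 : V.a₁ = 1 := by rw [eV]; exact map_one _
  have e3 : V.a₃ = 0 := by rw [eV]; exact map_zero _
  have e6 : V.a₆ = 0 := by rw [eV]; exact map_zero _
  have e2 : V.a₂ = ((P.b : Qb) ^ P.p - 1 - (P.a : Qb) ^ P.p) / 4 := by
    rw [eV]; simp [FreyPackage.freyCurve, WeierstrassCurve.baseChange]
  have e4 : V.a₄ = -((P.a : Qb) ^ P.p) * (P.b : Qb) ^ P.p / 16 := by
    rw [eV]; simp [FreyPackage.freyCurve, WeierstrassCurve.baseChange]
  -- one coordinate at which the cubic has a simple root modulo `3`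
  have main : ∀ (r : ℚ) (n : ℤ), ((r : Qb) * (r : Qb) * r + (V.a₂ + 1 / 4) * ((r : Qb) * r) +
        V.a₄ * r = 0) → -(r : Qb) / 2 - (3 * (r : Qb) ^ 2 + 2 * V.a₂ * r + V.a₄) = n / 16 →
      ¬ (3 : ℤ) ∣ n → (∃ m : ℤ, (r : Qb) = m / 4) →
      ∃ Q₂ : ((P.freyCurveInt.map (Int.castRingHom ℚ))⁄Qb).Point, addOrderOf Q₂ = 2 ∧ (∀ σ : Qb ≃ₐ[ℚ] Qb, σ • Q₂ = Q₂) ∧
        ∀ A : ValuationSubring Qb, A.LiesOverPrime 3 → P.freyCurveInt.InZeroComponentAt A Q₂ := by
    intro r n hroot hder hn hint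
    have heq : V.toAffine.Equation (r : Qb) (-(r : Qb) / 2) := by
      rw [Affine.equation_iff, e1, e3, e6]
      linear_combination -hroot
    have hn0 : (n : Qb) / 16 ≠ 0 :=
      div_ne_zero (Int.cast_ne_zero.2 fun h => hn (h ▸ dvd_zero _)) (by norm_num)
    have hns : V.toAffine.Nonsingular (r : Qb) (-(r : Qb) / 2) := by
      rw [Affine.nonsingular_iff']
      refine ⟨heq, Or.inl ?_⟩
      rw [e1, one_mul, hder]
      exact hn0
    refine ⟨.some _ _ hns, ?_, fun σ => ?_, fun A hA => ?_⟩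
    · have := Fact.mk Nat.prime_two
      refine addOrderOf_eq_prime ?_ (Affine.Point.some_ne_zero _)
      rw [two_nsmul]
      refine Affine.Point.add_self_of_Y_eq ?_
      rw [Affine.negY, e1, e3]
      ring
    · rw [ECLocal.smul_some_eq]
      simp [map_ofNat]
    · rw [← ECLocal.nonsingRed_iff_inZeroComponentAt]
      have h2 := ECLocal.valuation_intCast_eq_one (m := 2) Nat.prime_three (by decide) A hA
      have h16 := ECLocal.valuation_intCast_eq_one (m := 16) Nat.prime_three (by decide) A hA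
      have h4 := ECLocal.valuation_intCast_eq_one (m := 4) Nat.prime_three (by decide) A hA
      have hn' := ECLocal.valuation_intCast_eq_one Nat.prime_three hn A hA
      push_cast at h2 h4 h16
      obtain ⟨m, hm⟩ := hint
      have hr : (r : Qb) ∈ A := by
        rw [← ValuationSubring.valuation_le_one_iff, hm, map_div₀, h4, div_one,
          ValuationSubring.valuation_le_one_iff]
        exact intCast_mem A m
      have hy : -(r : Qb) / 2 ∈ A := by
        rw [← ValuationSubring.valuation_le_one_iff, map_div₀, h2, div_one, Valuation.map_neg,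
          ValuationSubring.valuation_le_one_iff]
        exact hr
      rw [ECLocal.nonsingRed_some_iff hr hy]
      left
      change A.valuation (V.a₁ * (-(r : Qb) / 2)
        - (3 * (r : Qb) ^ 2 + 2 * V.a₂ * (r : Qb) + V.a₄)) = 1
      rw [e1, one_mul, hder, map_div₀, hn', h16, div_one]
  have habc := ECLocal.dvd_abc_of_dvd_freyCurveInt_Δ P Nat.prime_three h3
  have hp3 : Prime ((3 : ℕ) : ℤ) := Nat.prime_iff_prime_int.1 Nat.prime_three
  have hcop : ∀ u v : ℤ, gcd u v = 1 → (3 : ℤ) ∣ u → ¬ (3 : ℤ) ∣ v := fun u v h hu hv => by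
    have := dvd_gcd hu hv
    rw [h] at this
    norm_num at this
  have hnd : ∀ u v : ℤ, ¬ (3 : ℤ) ∣ u → ¬ (3 : ℤ) ∣ v → ¬ (3 : ℤ) ∣ u ^ P.p * v ^ P.p :=
    fun u v hu hv h => (hp3.dvd_or_dvd h).elim (fun h => hu (hp3.dvd_of_dvd_pow h))
      fun h => hv (hp3.dvd_of_dvd_pow h)
  rcases hp3.dvd_or_dvd habc with h | h
  · rcases hp3.dvd_or_dvd h with ha | hb
    · refine main (-(P.b : ℚ) ^ P.p / 4) (-(P.b ^ P.p * P.c ^ P.p)) ?_ ?_ ?_ ⟨-(P.b ^ P.p), ?_⟩
      · rw [e2, e4]; push_cast; ring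
      · rw [e2, e4]; push_cast; rw [← hflt]; ring
      · rw [dvd_neg]
        exact hnd _ _ (hcop _ _ P.hgcdab ha) (hcop _ _ P.hgcdac ha)
      · push_cast; ring
    · refine main ((P.a : ℚ) ^ P.p / 4) (-(P.a ^ P.p * P.c ^ P.p)) ?_ ?_ ?_ ⟨P.a ^ P.p, ?_⟩
      · rw [e2, e4]; push_cast; ring
      · rw [e2, e4]; push_cast; rw [← hflt]; ring
      · rw [dvd_neg]
        exact hnd _ _ (fun h => hcop _ _ P.hgcdab h hb) (hcop _ _ P.hgcdbc hb)
      · push_cast; ring
  · refine main 0 (P.a ^ P.p * P.b ^ P.p) ?_ ?_ ?_ ⟨0, ?_⟩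
    · push_cast; ring
    · rw [e4]; push_cast; ring
    · exact hnd _ _ (fun ha => hcop _ _ P.hgcdac ha h) (fun hb => hcop _ _ P.hgcdbc hb h)
    · push_cast; ring

end Fermat.Agent.Mazur.Frey
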